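import Mathlib
import Fermat.Agent.PT.Arith.Wire2
import Fermat.Agent.PT.Loc.H48LocBase
import Fermat.Agent.PT.Loc.H95InvTotalFinal
import Fermat.Agent.PT.Loc.H23KDimW
import Fermat.Agent.PT.Loc.H39H1Dim
import Fermat.Agent.PT.Glob.H56KGlob
import Fermat.Agent.PT.Glob.BrCount
import Fermat.Agent.PT.Glob.H68BrHyper
import Fermat.Agent.PT.Glob.H64BrN3
import Fermat.Agent.PT.Glob.H81LocInj
import Fermat.Agent.PT.Glob.H98BrAlg
import Fermat.Agent.PT.Glob.H66BrDUGood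
import Fermat.Agent.PT.Glob.H78BrNF
import Fermat.Agent.PT.Glob.H47KTop
import Fermat.Agent.PT.Glob.H93KDAsm
import Fermat.Agent.PT.Glob.H36SumPlc
import Fermat.Agent.PT.Glob.H23PlacesCard
import Fermat.Agent.PT.Glob.H47Iso
import Fermat.Agent.PT.Glob.H93Tower
import Fermat.Agent.PT.Glob.Rec.H79RecQFor
import Fermat.Agent.PT.Shap.H97TrOK
import Fermat.Agent.PT.Shap.GlobAsm

/-!
# W3-PT (helper48): top-level integration of S55, conditional on the open global leaves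

`h48d_globBaseFor_of` : `GlobBaseFor p (Loc.invFam p)` from reciprocity and the leaves of
PT-GLOB-K / PT-GLOB-BR that are not yet on main; every landed leaf is plugged in.
`h48d_arithInputs_of` : `ArithInputs` with the family `Loc.invFam p`.
`h48d_s55_of` : the frozen statement S55.
-/

set_option autoImplicit false

open CategoryTheory Module groupCohomology ExtCitation

namespace Fermat.Agent.PT

open Fermat.Agent.PT.Glob Fermat.Agent.PT.Shap

/-- Traces with local invariants `Loc.invFam p` exist (from reciprocity). -/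
theorem h48d_trEx (p : ℕ) [Fact p.Prime] (hRec : RecQFor p (Loc.invFam p)) :
    TrEx (Loc.invFam p) := by
  intro S hpS
  obtain ⟨tr, htr, hinv⟩ := h98a_exists_tr (DQ p S) (fun q => Loc.invFam p q.1)
    (fun q => Loc.h48_locInvOK_final p q.1) (fun a ha => hRec S hpS a ha)
  exact ⟨tr, htr, hinv⟩

/-- The count `BrVV ∧ BrEq` from reciprocity, `KInvW`, `LocInjW`, `BrCountH`. -/
theorem h48d_count
    (hRec : ∀ (p : ℕ) [Fact p.Prime], p ≠ 2 → RecQFor p (Loc.invFam p))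
    (hInvW : KInvW)
    (hWInj : ∀ (p : ℕ) [Fact p.Prime], p ≠ 2 → LocInjW (Loc.invFam p))
    (hCountH : BrCountH) : BrVV ∧ BrEq := by
  have hN3 : BrN3 := h64n_brN3_of h98b_brAlgA h66b_brDUGood h97s_shapTrOK Bridge.dqGood hCountH
    h23_placesCard (fun p _ hp2 => ⟨Loc.invFam p, h48d_trEx p (hRec p hp2),
      h81b_locInjFor hInvW p (Loc.invFam p) (hWInj p hp2)⟩)
  exact brCount Bridge.dqGood chi2Ineq chi2Van h78k_brNF h78k_brDeg h47_kN1 h47_kN2 hN3 h93_tower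

/-- The global base case for `Loc.invFam p` from the open leaves. -/
theorem h48d_globBaseFor_of
    (hRec : ∀ (p : ℕ) [Fact p.Prime], p ≠ 2 → RecQFor p (Loc.invFam p))
    (hInvW : KInvW)
    (hWInj : ∀ (p : ℕ) [Fact p.Prime], p ≠ 2 → LocInjW (Loc.invFam p))
    (hWNondeg : ∀ (p : ℕ) [Fact p.Prime], p ≠ 2 → LocNondegW (Loc.invFam p))
    (hCountH : BrCountH)
    (hLeft : ∀ (p : ℕ) [Fact p.Prime], p ≠ 2 → BrVV → KLeftFor (Loc.invFam p))
    (p : ℕ) [Fact p.Prime] (hp2 : p ≠ 2) : GlobBaseFor p (Loc.invFam p) := by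
  obtain ⟨hVV, hEq⟩ := h48d_count hRec hInvW hWInj hCountH
  have hLI : LocInjFor (Loc.invFam p) := h81b_locInjFor hInvW p (Loc.invFam p) (hWInj p hp2)
  have hHyp : BrHyperFor (Loc.invFam p) :=
    h68b_brHyperFor_of h98b_brAlgC h66b_brDUGood h97s_shapTrOK Bridge.dqGood h78k_brNF hCountH
      h23_placesCard hEq (Loc.invFam p) hLI
  have hD : KCountD := h93d_kCountDAsm
    (fun p _ hp2 => ⟨Loc.invFam p, Loc.h48_locInvOK_final p, hRec p hp2, hWNondeg p hp2⟩)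
    h97s_shapTrOK Bridge.dqGood hInvW h36s_kSumPlc (Loc.h23k_locDimW Loc.h39d_h1DimRel)
    h23_placesCard h47_kIso h47_kN1
  have hL : GlobBaseL (Loc.invFam p) :=
    h56k_kGlobAsm p (Loc.invFam p) h83a_kPerfAsm h97s_shapTrOK Bridge.dqGood hInvW hVV hCountH hD
      hHyp (hWInj p hp2) (hLeft p hp2 hVV)
  exact h56k_kGlobShap p (Loc.invFam p) hp2 h69g_shapGlobal Bridge.dqGood hL

/-- `ArithInputs` from the open leaves. -/
theorem h48d_arithInputs_of
    (hRec : ∀ (p : ℕ) [Fact p.Prime], p ≠ 2 → RecQFor p (Loc.invFam p))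
    (hInvW : KInvW)
    (hWInj : ∀ (p : ℕ) [Fact p.Prime], p ≠ 2 → LocInjW (Loc.invFam p))
    (hWNondeg : ∀ (p : ℕ) [Fact p.Prime], p ≠ 2 → LocNondegW (Loc.invFam p))
    (hCountH : BrCountH)
    (hLeft : ∀ (p : ℕ) [Fact p.Prime], p ≠ 2 → BrVV → KLeftFor (Loc.invFam p)) :
    ArithInputs := fun p _ hp2 =>
  ⟨Loc.invFam p, Loc.h48_locInvOK_final p, Loc.h48_locBaseFor_final p hp2, hRec p hp2,
    h48d_globBaseFor_of hRec hInvW hWInj hWNondeg hCountH hLeft p hp2⟩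

/-- The frozen statement S55 from the open leaves. -/
theorem h48d_s55_of
    (hRec : ∀ (p : ℕ) [Fact p.Prime], p ≠ 2 → RecQFor p (Loc.invFam p))
    (hInvW : KInvW)
    (hWInj : ∀ (p : ℕ) [Fact p.Prime], p ≠ 2 → LocInjW (Loc.invFam p))
    (hWNondeg : ∀ (p : ℕ) [Fact p.Prime], p ≠ 2 → LocNondegW (Loc.invFam p))
    (hCountH : BrCountH)
    (hLeft : ∀ (p : ℕ) [Fact p.Prime], p ≠ 2 → BrVV → KLeftFor (Loc.invFam p))
    {p : ℕ} [Fact p.Prime] (hp2 : p ≠ 2) (S : Finset Nat.Primes) (hpS : pPrime p ∈ S)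
    (M : Rep (ZMod p) (AlgebraicClosure ℚ ≃ₐ[ℚ] AlgebraicClosure ℚ))
    [FiniteDimensional (ZMod p) M]
    (hsm : ∀ m : M, ∃ F : IntermediateField ℚ (AlgebraicClosure ℚ), FiniteDimensional ℚ F ∧
      ∀ s ∈ F.fixingSubgroup, M.ρ s m = m)
    (hMur : ∀ q : Nat.Primes, q ∉ S → ∀ A : ValuationSubring (AlgebraicClosure ℚ),
      A.LiesOverPrime (q : ℕ) → ∀ g ∈ A.inertiaSubgroupIn ℚ, M.ρ g = 1) :
    ∃ B : sha₁ S (M.dualTwist (cycloChar p)) →ₗ[ZMod p] sha₂ S M →ₗ[ZMod p] ZMod p,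
      (∀ y, (∀ x, B y x = 0) → y = 0) ∧ (∀ x, (∀ y, B y x = 0) → x = 0) :=
  s55_of_arithInputs (h48d_arithInputs_of hRec hInvW hWInj hWNondeg hCountH hLeft) hp2 S hpS M
    hsm hMur

end Fermat.Agent.PT
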