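import Mathlib
import Fermat.Agent.PT.Final.H48Dry
import Fermat.Agent.PT.Glob.H48InvWOK
import Fermat.Agent.PT.Glob.Rec.H79RecQForFinal
import Fermat.Agent.PT.Glob.H12ShaDict
import Fermat.Agent.PT.Glob.GlobFinal
import Fermat.Agent.PT.Glob.H2KNondegFinal
import Fermat.Agent.PT.Glob.H24InvW
import Fermat.Agent.PT.Glob.H64KLeftAsm
import Fermat.Agent.PT.Glob.K.H65TameW
import Fermat.Agent.PT.Glob.K.H69Pair
import Fermat.Agent.PT.Glob.K.H72LocEval
import Fermat.Agent.PT.Glob.K.H90UnrW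
import Fermat.Agent.PT.Glob.K.H29DPInertGamU
import Fermat.Agent.PT.Glob.K.H29DPZeta
import Fermat.Agent.PT.Glob.H36InertUnit
import Fermat.Agent.PT.Glob.H47Cheb
import Fermat.Agent.PT.Glob.H96KClassEx
import Fermat.Agent.PT.Glob.H52ClassExAbs
import Fermat.Agent.PT.Glob.H23FrobW
import Fermat.Agent.PT.Glob.H47KTop

/-!
# W3-PT (helper48): `ArithInputs` and S55, unconditional

All hypotheses of `h48d_arithInputs_of` (`PT/Final/H48Dry.lean`) are discharged by landed
theorems: reciprocity `h79r_recQFor` (helper79), `h24w_kInvW` (helper24), `h48w_locInjW`,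
`h48w_invWOK`, `h2k_locNondegW` (helper2), `h12s_brCountH_of h14g_gShaBound` (helper12, helper11,
helper67, helper14) and the assembly `h64l_kLeftAsm` of (d') (helper64) with its leaves.
-/

set_option autoImplicit false

open CategoryTheory Module groupCohomology ExtCitation

namespace Fermat.Agent.PT

open Fermat.Agent.PT.Glob Fermat.Agent.PT.Shap

/-- (d') left nondegeneracy for the family `Loc.invFam p`. -/
theorem h48s_kLeftFor (p : ℕ) [Fact p.Prime] (hp2 : p ≠ 2) (hVV : BrVV) :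
    KLeftFor (Loc.invFam p) :=
  h64l_kLeftAsm p (Loc.invFam p) (Loc.h48_locInvOK_final p) (h79r_recQFor p hp2)
    h97s_shapTrOK Bridge.dqGood h24w_kInvW h36s_kSumPlc (h48w_invWOK p) (h48w_locInjW p) hVV
    h90u_kUnrW h65t_kTameW h29d_kInertGam_holds h36u2_kInertUnit h29d_kZetaInert h96k_kKumBasic
    h96k_kKumRam h47_kCheb (h96x_kClassEx h52k_kClassExAbs) (h29k_kBockLoc h96v_kBockLev)
    h23f_kFrobW h69p_kPairFormula h72e_kLocEval

/-- **The arithmetic inputs of S55**, unconditional. -/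
theorem h48s_arithInputs : ArithInputs :=
  h48d_arithInputs_of (fun p _ hp2 => h79r_recQFor p hp2) h24w_kInvW
    (fun p _ _ => h48w_locInjW p) (fun p _ _ => h2k_locNondegW p)
    (h12s_brCountH_of h14g_gShaBound) (fun p _ hp2 hVV => h48s_kLeftFor p hp2 hVV)

/-- **Poitou–Tate duality `Ш¹ × Ш² → 𝔽_p`** (the frozen statement S55). -/
theorem h48s_s55
    {p : ℕ} [Fact p.Prime] (hp2 : p ≠ 2) (S : Finset Nat.Primes) (hpS : pPrime p ∈ S)
    (M : Rep (ZMod p) (AlgebraicClosure ℚ ≃ₐ[ℚ] AlgebraicClosure ℚ))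
    [FiniteDimensional (ZMod p) M]
    (hsm : ∀ m : M, ∃ F : IntermediateField ℚ (AlgebraicClosure ℚ), FiniteDimensional ℚ F ∧
      ∀ s ∈ F.fixingSubgroup, M.ρ s m = m)
    (hMur : ∀ q : Nat.Primes, q ∉ S → ∀ A : ValuationSubring (AlgebraicClosure ℚ),
      A.LiesOverPrime (q : ℕ) → ∀ g ∈ A.inertiaSubgroupIn ℚ, M.ρ g = 1) :
    ∃ B : sha₁ S (M.dualTwist (cycloChar p)) →ₗ[ZMod p] sha₂ S M →ₗ[ZMod p] ZMod p,
      (∀ y, (∀ x, B y x = 0) → y = 0) ∧ (∀ x, (∀ y, B y x = 0) → x = 0) :=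
  s55_of_arithInputs h48s_arithInputs hp2 S hpS M hsm hMur

end Fermat.Agent.PT
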